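import Mathlib

/-!
# Riemann-Roch on the projective line for pairs of lattices

`k` a field, `K = RatFunc k`, `V` a finite dimensional `K`-vector space with two bases `bf`, `binf`.
`Lfin bf` is the `k[X]`-span of `bf`, `Linf binf` the span of `binf` over the valuation ring at
infinity (both as `k`-subspaces).  Then `H0 = Lfin bf ⊓ Linf binf` and
`H1 = V ⧸ (Lfin bf ⊔ Linf binf)` are finite dimensional over `k` and
`dim H0 - dim H1 = card ι - intDegree (det (binf.toMatrix bf))`.
-/

open Module Polynomial Submodule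

namespace Fermat.Agent.S20_helper98

section smith

variable {k : Type*} [Field k] {M : Type*} [AddCommGroup M]
  [Module k[X] M] [Module k M] [IsScalarTower k k[X] M] [Module.Free k[X] M] [Module.Finite k[X] M]

theorem finiteDimensional_quotient_span_singleton {a : k[X]} (ha : a ≠ 0) :
    FiniteDimensional k (k[X] ⧸ Ideal.span ({a} : Set k[X])) :=
  PowerBasis.finite <| AdjoinRoot.powerBasis ha

theorem finrank_quotient_span_singleton {a : k[X]} (ha : a ≠ 0) :
    finrank k (k[X] ⧸ Ideal.span ({a} : Set k[X])) = a.natDegree :=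
  (AdjoinRoot.powerBasis ha).finrank

theorem finrank_quotient_eq_natDegree_det (N : Submodule k[X] M) (e : M ≃ₗ[k[X]] N) :
    FiniteDimensional k (M ⧸ N) ∧
    finrank k (M ⧸ N) = (LinearMap.det (N.subtype ∘ₗ (e : M →ₗ[k[X]] N))).natDegree := by
  classical
  let b := Module.Free.chooseBasis k[X] M
  have h : Module.finrank k[X] N = Module.finrank k[X] M := e.symm.finrank_eq
  let a := smithNormalFormCoeffs b h
  let b' := smithNormalFormTopBasis b h
  let ab := smithNormalFormBotBasis b h
  have ab_eq := smithNormalFormBotBasis_def b h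
  have ha0 : ∀ i, a i ≠ 0 := smithNormalFormCoeffs_ne_zero b h
  let e' : M ≃ₗ[k[X]] N := b'.equiv ab (Equiv.refl _)
  let f : M →ₗ[k[X]] M := N.subtype.comp (e' : M →ₗ[k[X]] N)
  have f_apply : ∀ x, f x = b'.equiv ab (Equiv.refl _) x := fun x ↦ rfl
  have ha : ∀ i, f (b' i) = a i • b' i := by
    intro i
    rw [f_apply, b'.equiv_apply, Equiv.refl_apply]
    exact ab_eq i
  have hdet : LinearMap.det f = ∏ i, a i := by
    rw [← LinearMap.det_toMatrix b', ← Matrix.det_diagonal]
    congr 1; ext i j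
    rw [LinearMap.toMatrix_apply, ha, map_smul, Basis.repr_self, Finsupp.smul_single,
      smul_eq_mul, mul_one]
    by_cases h : i = j
    · rw [h, Matrix.diagonal_apply_eq, Finsupp.single_eq_same]
    · rw [Matrix.diagonal_apply_ne _ h, Finsupp.single_eq_of_ne h]
  have hfin : ∀ i, FiniteDimensional k (k[X] ⧸ Ideal.span ({a i} : Set k[X])) :=
    fun i => finiteDimensional_quotient_span_singleton (ha0 i)
  have hassoc : Associated (LinearMap.det (N.subtype ∘ₗ (e : M →ₗ[k[X]] N))) (LinearMap.det f) :=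
    LinearMap.associated_det_comp_equiv _ _ _
  constructor
  · have e2 := (N.quotientEquivPiSpan b h).restrictScalars k
    exact Module.Finite.equiv e2.symm
  · rw [natDegree_eq_of_degree_eq (degree_eq_degree_of_associated hassoc), hdet,
      natDegree_prod _ _ fun i _ => ha0 i, Submodule.finrank_quotient_eq_sum k b h]
    congr with i
    exact finrank_quotient_span_singleton (ha0 i)

end smith

section additivity

variable {k : Type*} [Field k] {V : Type*} [AddCommGroup V] [Module k V]

/-- the relative quotient `P / P'` -/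
abbrev RelQuot (P' P : Submodule k V) : Type _ := ↥P ⧸ P'.submoduleOf P

variable (P' P Q : Submodule k V)

noncomputable def alphaMap : ↥(P ⊓ Q) →ₗ[k] RelQuot P' P :=
  (P'.submoduleOf P).mkQ ∘ₗ (Submodule.inclusion (inf_le_left : P ⊓ Q ≤ P))

noncomputable def betaMap : RelQuot P' P →ₗ[k] V ⧸ (P' ⊔ Q) :=
  (P'.submoduleOf P).liftQ ((P' ⊔ Q).mkQ ∘ₗ P.subtype) (by
    intro x hx
    simp only [LinearMap.mem_ker, LinearMap.comp_apply, Submodule.subtype_apply, mkQ_apply,
      Quotient.mk_eq_zero]
    exact mem_sup_left hx)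

variable {P' P} in
noncomputable def gammaMap (hle : P' ≤ P) : V ⧸ (P' ⊔ Q) →ₗ[k] V ⧸ (P ⊔ Q) :=
  Submodule.factor (sup_le_sup_right hle Q)

variable {P' P}

theorem gammaMap_surjective (hle : P' ≤ P) : Function.Surjective (gammaMap Q hle) :=
  Submodule.factor_surjective (sup_le_sup_right hle Q)

theorem ker_alphaMap :
    LinearMap.ker (alphaMap P' P Q) = (P' ⊓ Q).submoduleOf (P ⊓ Q) := by
  ext x
  have hx2 : (x : V) ∈ Q := x.2.2
  rw [LinearMap.mem_ker]
  change (P'.submoduleOf P).mkQ (Submodule.inclusion inf_le_left x) = 0 ↔ _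
  rw [mkQ_apply, Quotient.mk_eq_zero]
  simp only [submoduleOf, mem_comap, Submodule.subtype_apply, mem_inf, coe_inclusion, hx2,
    and_true]

theorem range_alphaMap (hle : P' ≤ P) :
    LinearMap.range (alphaMap P' P Q) = LinearMap.ker (betaMap P' P Q) := by
  ext u
  obtain ⟨x, rfl⟩ := (P'.submoduleOf P).mkQ_surjective u
  simp only [LinearMap.mem_range, LinearMap.mem_ker, betaMap, mkQ_apply, liftQ_apply,
    LinearMap.comp_apply, Submodule.subtype_apply, Quotient.mk_eq_zero, alphaMap]
  constructor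
  · rintro ⟨y, hy⟩
    rw [Submodule.Quotient.eq] at hy
    have h1 : ((y : V) - (x : V)) ∈ P' := hy
    have h2 : (x : V) = (y : V) - ((y : V) - (x : V)) := by abel
    rw [h2]
    exact sub_mem (mem_sup_right y.2.2) (mem_sup_left h1)
  · intro hx
    obtain ⟨p, hp, q, hq, hpq⟩ := mem_sup.1 hx
    have hqP : q ∈ P := by
      have : q = (x : V) - p := by rw [← hpq]; abel
      rw [this]; exact sub_mem x.2 (hle hp)
    refine ⟨⟨q, hqP, hq⟩, ?_⟩
    rw [Submodule.Quotient.eq]
    change (q - (x : V)) ∈ P'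
    have : q - (x : V) = -p := by rw [← hpq]; abel
    rw [this]; exact neg_mem hp

theorem range_betaMap (hle : P' ≤ P) :
    LinearMap.range (betaMap P' P Q) = LinearMap.ker (gammaMap Q hle) := by
  ext w
  obtain ⟨v, rfl⟩ := (P' ⊔ Q).mkQ_surjective w
  have key : gammaMap Q hle ((P' ⊔ Q).mkQ v) = (P ⊔ Q).mkQ v := rfl
  rw [LinearMap.mem_ker, key, LinearMap.mem_range]
  simp only [mkQ_apply, Quotient.mk_eq_zero]
  constructor
  · rintro ⟨u, hu⟩
    obtain ⟨x, rfl⟩ := (P'.submoduleOf P).mkQ_surjective u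
    simp only [betaMap, mkQ_apply, liftQ_apply, LinearMap.comp_apply, Submodule.subtype_apply] at hu
    rw [Submodule.Quotient.eq] at hu
    have h2 : v = (x : V) - ((x : V) - v) := by abel
    rw [h2]
    exact sub_mem (mem_sup_left x.2) (sup_le_sup_right hle Q hu)
  · intro hv
    obtain ⟨p, hp, q, hq, hpq⟩ := mem_sup.1 hv
    refine ⟨(P'.submoduleOf P).mkQ ⟨p, hp⟩, ?_⟩
    simp only [betaMap, mkQ_apply, liftQ_apply, LinearMap.comp_apply, Submodule.subtype_apply]
    rw [Submodule.Quotient.eq]
    have : p - v = -q := by rw [← hpq]; abel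
    rw [this]; exact neg_mem (mem_sup_right hq)

theorem chi_of_le (hle : P' ≤ P) [FiniteDimensional k (RelQuot P' P)]
    [FiniteDimensional k ↥(P ⊓ Q)] [FiniteDimensional k (V ⧸ (P ⊔ Q))]
    [FiniteDimensional k ↥(P' ⊓ Q)] [FiniteDimensional k (V ⧸ (P' ⊔ Q))] :
    (finrank k ↥(P ⊓ Q) : ℤ) - finrank k (V ⧸ (P ⊔ Q)) =
      finrank k ↥(P' ⊓ Q) - finrank k (V ⧸ (P' ⊔ Q)) + finrank k (RelQuot P' P) := by
  have e1 := LinearMap.finrank_range_add_finrank_ker (alphaMap P' P Q)
  have e2 := LinearMap.finrank_range_add_finrank_ker (betaMap P' P Q)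
  have e3 := LinearMap.finrank_range_add_finrank_ker (gammaMap Q hle)
  rw [ker_alphaMap, range_alphaMap Q hle,
    (submoduleOfEquivOfLe (inf_le_inf_right Q hle)).finrank_eq] at e1
  rw [range_betaMap Q hle] at e2
  rw [LinearMap.range_eq_top.2 (gammaMap_surjective Q hle), finrank_top] at e3
  omega

theorem fd_down (hle : P' ≤ P) [FiniteDimensional k (RelQuot P' P)]
    [FiniteDimensional k ↥(P ⊓ Q)] [FiniteDimensional k (V ⧸ (P ⊔ Q))] :
    FiniteDimensional k ↥(P' ⊓ Q) ∧ FiniteDimensional k (V ⧸ (P' ⊔ Q)) := by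
  constructor
  · exact Submodule.finiteDimensional_of_le (inf_le_inf_right Q hle)
  · have h1 : FiniteDimensional k (LinearMap.ker (gammaMap Q hle)) := by
      rw [← range_betaMap Q hle]; infer_instance
    have h2 : FiniteDimensional k ((V ⧸ (P' ⊔ Q)) ⧸ LinearMap.ker (gammaMap Q hle)) :=
      Module.Finite.equiv
        ((gammaMap Q hle).quotKerEquivOfSurjective (gammaMap_surjective Q hle)).symm
    exact Module.Finite.of_submodule_quotient (LinearMap.ker (gammaMap Q hle))

theorem fd_up (hle : P' ≤ P) [FiniteDimensional k (RelQuot P' P)]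
    [FiniteDimensional k ↥(P' ⊓ Q)] [FiniteDimensional k (V ⧸ (P' ⊔ Q))] :
    FiniteDimensional k ↥(P ⊓ Q) ∧ FiniteDimensional k (V ⧸ (P ⊔ Q)) := by
  constructor
  · have h1 : FiniteDimensional k (LinearMap.ker (alphaMap P' P Q)) := by
      rw [ker_alphaMap]
      exact Module.Finite.equiv (submoduleOfEquivOfLe (inf_le_inf_right Q hle)).symm
    have h2 : FiniteDimensional k (↥(P ⊓ Q) ⧸ LinearMap.ker (alphaMap P' P Q)) :=
      Module.Finite.equiv (alphaMap P' P Q).quotKerEquivRange.symm
    exact Module.Finite.of_submodule_quotient (LinearMap.ker (alphaMap P' P Q))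
  · exact Module.Finite.of_surjective (gammaMap Q hle) (gammaMap_surjective Q hle)

end additivity

section ratfunc

variable {k : Type*} [Field k]

theorem exists_polynomial_sub_intDegree_le (f : RatFunc k) :
    ∃ p : k[X], (f - algebraMap k[X] (RatFunc k) p).intDegree ≤ 0 := by
  refine ⟨f.num /ₘ f.denom, ?_⟩
  have hmonic : f.denom.Monic := RatFunc.monic_denom f
  have hd0 : f.denom ≠ 0 := RatFunc.denom_ne_zero f
  have hdK : algebraMap k[X] (RatFunc k) f.denom ≠ 0 := RatFunc.algebraMap_ne_zero hd0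
  have hdiv : f.num %ₘ f.denom + f.denom * (f.num /ₘ f.denom) = f.num :=
    Polynomial.modByMonic_add_div f.num f.denom
  have hf : f = algebraMap k[X] (RatFunc k) f.num / algebraMap k[X] (RatFunc k) f.denom :=
    (RatFunc.num_div_denom f).symm
  have key : f - algebraMap k[X] (RatFunc k) (f.num /ₘ f.denom) =
      algebraMap k[X] (RatFunc k) (f.num %ₘ f.denom) / algebraMap k[X] (RatFunc k) f.denom := by
    rw [eq_div_iff hdK, sub_mul]
    nth_rewrite 1 [hf]
    rw [div_mul_cancel₀ _ hdK]
    nth_rewrite 1 [← hdiv]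
    rw [map_add, map_mul]
    ring
  rw [key]
  by_cases hr : f.num %ₘ f.denom = 0
  · simp [hr]
  · have hrK : algebraMap k[X] (RatFunc k) (f.num %ₘ f.denom) ≠ 0 := RatFunc.algebraMap_ne_zero hr
    rw [RatFunc.intDegree_div hrK hdK, RatFunc.intDegree_polynomial, RatFunc.intDegree_polynomial]
    have := Polynomial.natDegree_modByMonic_lt f.num hmonic (by
      intro h1
      rw [h1] at hr
      simp at hr)
    omega

theorem eq_C_of_polynomial_of_intDegree_le {f : RatFunc k}
    (h1 : f ∈ Set.range (algebraMap k[X] (RatFunc k))) (h2 : f.intDegree ≤ 0) :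
    ∃ c : k, f = algebraMap k (RatFunc k) c := by
  obtain ⟨p, rfl⟩ := h1
  rw [RatFunc.intDegree_polynomial] at h2
  have : p.natDegree = 0 := by omega
  obtain ⟨c, rfl⟩ := Polynomial.natDegree_eq_zero.1 this
  exact ⟨c, by rw [IsScalarTower.algebraMap_apply k k[X] (RatFunc k)]; rfl⟩

theorem intDegree_add_le_zero {x y : RatFunc k} (hx : x.intDegree ≤ 0) (hy : y.intDegree ≤ 0) :
    (x + y).intDegree ≤ 0 := by
  by_cases hy0 : y = 0
  · simpa [hy0] using hx
  by_cases hxy : x + y = 0
  · simp [hxy]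
  exact (RatFunc.intDegree_add_le hy0 hxy).trans (max_le hx hy)

theorem intDegree_algebraMap_mul (c : k) (x : RatFunc k) (hx : x.intDegree ≤ 0) :
    (algebraMap k (RatFunc k) c * x).intDegree ≤ 0 := by
  by_cases hc : c = 0
  · simp [hc]
  by_cases hx0 : x = 0
  · simp [hx0]
  have hcK : algebraMap k (RatFunc k) c ≠ 0 := by
    simpa using hc
  rw [RatFunc.intDegree_mul hcK hx0]
  have : (algebraMap k (RatFunc k) c).intDegree = 0 := by
    rw [RatFunc.algebraMap_eq_C, RatFunc.intDegree_C]
  omega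

end ratfunc

section lattices

variable {k : Type*} [Field k] {V : Type*} [AddCommGroup V] [Module (RatFunc k) V] [Module k V]
  [IsScalarTower k (RatFunc k) V] {ι : Type*} [Fintype ι]

omit [Fintype ι] in
theorem repr_smul' (b : Basis ι (RatFunc k) V) (c : k) (v : V) (i : ι) :
    b.repr (c • v) i = algebraMap k (RatFunc k) c * b.repr v i := by
  rw [← algebraMap_smul (RatFunc k) c v, map_smul, Finsupp.smul_apply, smul_eq_mul]

/-- The `k[X]`-lattice spanned by the basis `b`, as a `k`-subspace. -/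
def Lfin (b : Basis ι (RatFunc k) V) : Submodule k V where
  carrier := {v | ∀ i, b.repr v i ∈ Set.range (algebraMap k[X] (RatFunc k))}
  add_mem' := by
    intro v w hv hw i
    obtain ⟨p, hp⟩ := hv i
    obtain ⟨q, hq⟩ := hw i
    exact ⟨p + q, by rw [map_add, hp, hq, map_add, Finsupp.add_apply]⟩
  zero_mem' := by
    intro i
    exact ⟨0, by simp⟩
  smul_mem' := by
    intro c v hv i
    obtain ⟨p, hp⟩ := hv i
    refine ⟨Polynomial.C c * p, ?_⟩
    rw [repr_smul', map_mul, hp, RatFunc.algebraMap_C, RatFunc.algebraMap_eq_C]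

/-- The lattice over the valuation ring at infinity spanned by the basis `b`, as a `k`-subspace. -/
def Linf (b : Basis ι (RatFunc k) V) : Submodule k V where
  carrier := {v | ∀ i, (b.repr v i).intDegree ≤ 0}
  add_mem' := by
    intro v w hv hw i
    rw [map_add, Finsupp.add_apply]
    exact intDegree_add_le_zero (hv i) (hw i)
  zero_mem' := by
    intro i
    simp
  smul_mem' := by
    intro c v hv i
    rw [repr_smul']
    exact intDegree_algebraMap_mul c _ (hv i)

omit [Fintype ι] in
theorem mem_Lfin {b : Basis ι (RatFunc k) V} {v : V} :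
    v ∈ Lfin b ↔ ∀ i, b.repr v i ∈ Set.range (algebraMap k[X] (RatFunc k)) := Iff.rfl

omit [Fintype ι] in
theorem mem_Linf {b : Basis ι (RatFunc k) V} {v : V} :
    v ∈ Linf b ↔ ∀ i, (b.repr v i).intDegree ≤ 0 := Iff.rfl

/-- the constant vectors -/
noncomputable def constMap (b : Basis ι (RatFunc k) V) : (ι → k) →ₗ[k] V where
  toFun c := ∑ i, c i • b i
  map_add' c d := by simp [add_smul, Finset.sum_add_distrib]
  map_smul' a c := by simp [mul_smul, Finset.smul_sum]

theorem repr_constMap (b : Basis ι (RatFunc k) V) (c : ι → k) (i : ι) :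
    b.repr (constMap b c) i = algebraMap k (RatFunc k) (c i) := by
  classical
  simp only [constMap, LinearMap.coe_mk, AddHom.coe_mk, map_sum, Finsupp.coe_finsetSum,
    Finset.sum_apply, repr_smul', Basis.repr_self]
  rw [Finset.sum_eq_single i]
  · simp
  · intro j _ hj
    rw [Finsupp.single_eq_of_ne (Ne.symm hj), mul_zero]
  · simp

theorem constMap_injective (b : Basis ι (RatFunc k) V) : Function.Injective (constMap b) := by
  intro c d h
  funext i
  have := congrArg (fun v => b.repr v i) h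
  simp only [repr_constMap] at this
  exact (algebraMap k (RatFunc k)).injective this

theorem range_constMap (b : Basis ι (RatFunc k) V) :
    LinearMap.range (constMap b) = Lfin b ⊓ Linf b := by
  ext v
  constructor
  · rintro ⟨c, rfl⟩
    refine ⟨fun i => ?_, fun i => ?_⟩
    · rw [repr_constMap]
      exact ⟨Polynomial.C (c i), by rw [RatFunc.algebraMap_C, RatFunc.algebraMap_eq_C]⟩
    · rw [repr_constMap, RatFunc.algebraMap_eq_C, RatFunc.intDegree_C]
  · rintro ⟨h1, h2⟩
    choose c hc using fun i => eq_C_of_polynomial_of_intDegree_le (h1 i) (h2 i)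
    refine ⟨c, ?_⟩
    apply b.repr.injective
    ext i
    rw [repr_constMap, hc]

theorem standard_H0_finrank (b : Basis ι (RatFunc k) V) :
    FiniteDimensional k ↥(Lfin b ⊓ Linf b) ∧ finrank k ↥(Lfin b ⊓ Linf b) = Fintype.card ι := by
  rw [← range_constMap]
  refine ⟨inferInstance, ?_⟩
  rw [LinearMap.finrank_range_of_inj (constMap_injective b)]
  simp

theorem standard_sup_eq_top (b : Basis ι (RatFunc k) V) : Lfin b ⊔ Linf b = ⊤ := by
  rw [eq_top_iff]
  intro v _
  choose p hp using fun i => exists_polynomial_sub_intDegree_le (b.repr v i)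
  have hv : v = (∑ i, algebraMap k[X] (RatFunc k) (p i) • b i) +
      (v - ∑ i, algebraMap k[X] (RatFunc k) (p i) • b i) := by abel
  rw [hv]
  have hrepr : ∀ i, b.repr (∑ j, algebraMap k[X] (RatFunc k) (p j) • b j) i =
      algebraMap k[X] (RatFunc k) (p i) := by
    intro i
    rw [b.repr_sum_self]
  refine add_mem (mem_sup_left ?_) (mem_sup_right ?_)
  · intro i
    exact ⟨p i, (hrepr i).symm⟩
  · intro i
    rw [map_sub, Finsupp.sub_apply, hrepr]
    exact hp i

/-- coordinates: the `k`-linear map `k[X]^ι → V`, `a ↦ ∑ aᵢ bᵢ`. -/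
noncomputable def coordMap (b : Basis ι (RatFunc k) V) : (ι → k[X]) →ₗ[k] V where
  toFun a := ∑ i, algebraMap k[X] (RatFunc k) (a i) • b i
  map_add' c d := by simp [add_smul, Finset.sum_add_distrib]
  map_smul' c a := by
    simp only [Pi.smul_apply, RingHom.id_apply, Finset.smul_sum]
    refine Finset.sum_congr rfl fun i _ => ?_
    rw [← algebraMap_smul (RatFunc k) c (_ • b i), smul_smul, Algebra.smul_def, map_mul,
      ← IsScalarTower.algebraMap_apply]

theorem repr_coordMap (b : Basis ι (RatFunc k) V) (a : ι → k[X]) (i : ι) :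
    b.repr (coordMap b a) i = algebraMap k[X] (RatFunc k) (a i) := by
  simp only [coordMap, LinearMap.coe_mk, AddHom.coe_mk]
  rw [b.repr_sum_self]

theorem coordMap_injective (b : Basis ι (RatFunc k) V) : Function.Injective (coordMap b) := by
  intro c d h
  funext i
  have := congrArg (fun v => b.repr v i) h
  simp only [repr_coordMap] at this
  exact RatFunc.algebraMap_injective k this

theorem range_coordMap (b : Basis ι (RatFunc k) V) :
    LinearMap.range (coordMap b) = Lfin b := by
  ext v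
  constructor
  · rintro ⟨c, rfl⟩ i
    exact ⟨c i, (repr_coordMap b c i).symm⟩
  · intro h
    choose c hc using h
    refine ⟨c, ?_⟩
    apply b.repr.injective
    ext i
    rw [repr_coordMap, hc]

/-- the coordinate isomorphism `k[X]^ι ≃ Lfin b`. -/
noncomputable def coordEquiv (b : Basis ι (RatFunc k) V) : (ι → k[X]) ≃ₗ[k] ↥(Lfin b) :=
  (LinearEquiv.ofInjective (coordMap b) (coordMap_injective b)).trans
    (LinearEquiv.ofEq _ _ (range_coordMap b))

theorem coordEquiv_apply (b : Basis ι (RatFunc k) V) (a : ι → k[X]) :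
    ((coordEquiv b a : ↥(Lfin b)) : V) = coordMap b a := rfl

variable [DecidableEq ι]

omit [DecidableEq ι] in
theorem coordMap_mulVec (b b' : Basis ι (RatFunc k) V) (Mp : Matrix ι ι k[X])
    (hM : ∀ i j, algebraMap k[X] (RatFunc k) (Mp i j) = b.toMatrix b' i j) (a : ι → k[X]) :
    coordMap b (Mp.mulVec a) = coordMap b' a := by
  apply b.repr.injective
  ext i
  rw [repr_coordMap]
  simp only [coordMap, LinearMap.coe_mk, AddHom.coe_mk, map_sum, map_smul, Finsupp.coe_finsetSum,
    Finset.sum_apply, Finsupp.smul_apply, smul_eq_mul, Matrix.mulVec, dotProduct, map_mul, hM,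
    Basis.toMatrix_apply]
  refine Finset.sum_congr rfl fun j _ => ?_
  ring

omit [DecidableEq ι] in
theorem Lfin_le_of_polynomial (b b' : Basis ι (RatFunc k) V)
    (hpoly : ∀ i j, b.toMatrix b' i j ∈ Set.range (algebraMap k[X] (RatFunc k))) :
    Lfin b' ≤ Lfin b := by
  choose Mp hM using hpoly
  intro v hv
  rw [← range_coordMap] at hv ⊢
  obtain ⟨a, rfl⟩ := hv
  exact ⟨Matrix.mulVec (Matrix.of Mp) a, coordMap_mulVec b b' (Matrix.of Mp) hM a⟩

theorem relQuot_Lfin (b b' : Basis ι (RatFunc k) V)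
    (hpoly : ∀ i j, b.toMatrix b' i j ∈ Set.range (algebraMap k[X] (RatFunc k))) :
    FiniteDimensional k (RelQuot (Lfin b') (Lfin b)) ∧
      (finrank k (RelQuot (Lfin b') (Lfin b)) : ℤ) = (b.toMatrix b').det.intDegree := by
  choose Mp' hM using hpoly
  set Mp : Matrix ι ι k[X] := Matrix.of Mp' with hMp
  have hM' : ∀ i j, algebraMap k[X] (RatFunc k) (Mp i j) = b.toMatrix b' i j := hM
  have hmap : (algebraMap k[X] (RatFunc k)).mapMatrix Mp = b.toMatrix b' := by
    ext i j
    exact hM' i j
  have hdetK : algebraMap k[X] (RatFunc k) Mp.det = (b.toMatrix b').det := by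
    rw [RingHom.map_det, hmap]
  have hdetK0 : (b.toMatrix b').det ≠ 0 := by
    have h1 : b.toMatrix b' * b'.toMatrix b = 1 := Basis.toMatrix_mul_toMatrix_flip b b'
    intro h0
    have := congrArg Matrix.det h1
    rw [Matrix.det_mul, h0, zero_mul, Matrix.det_one] at this
    exact zero_ne_one this
  have hdet0 : Mp.det ≠ 0 := by
    intro h0
    rw [h0, map_zero] at hdetK
    exact hdetK0 hdetK.symm
  set f : (ι → k[X]) →ₗ[k[X]] (ι → k[X]) := Matrix.toLin' Mp with hf
  have hfdet : LinearMap.det f = Mp.det := LinearMap.det_toLin' Mp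
  have hinj : Function.Injective f := by
    rw [← LinearMap.ker_eq_bot]
    by_contra hne
    exact hdet0 (hfdet ▸ (LinearMap.det_eq_zero_iff_ker_ne_bot.2 hne))
  set N : Submodule k[X] (ι → k[X]) := LinearMap.range f with hN
  have key := finrank_quotient_eq_natDegree_det (k := k) N (LinearEquiv.ofInjective f hinj)
  have hcomp : N.subtype ∘ₗ ((LinearEquiv.ofInjective f hinj : (ι → k[X]) ≃ₗ[k[X]] N) :
      (ι → k[X]) →ₗ[k[X]] N) = f := by
    ext x : 1
    rfl
  rw [hcomp, hfdet] at key
  -- the equivalence of quotients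
  have hmapN : (N.restrictScalars k).map ((coordEquiv b : (ι → k[X]) ≃ₗ[k] ↥(Lfin b)) :
      (ι → k[X]) →ₗ[k] ↥(Lfin b)) = (Lfin b').submoduleOf (Lfin b) := by
    ext ⟨v, hv⟩
    simp only [Submodule.mem_map, Submodule.restrictScalars_mem, submoduleOf, mem_comap,
      Submodule.subtype_apply]
    constructor
    · rintro ⟨a, ⟨a', rfl⟩, ha⟩
      have : v = coordMap b (f a') := by
        have := congrArg Subtype.val ha
        simpa [coordEquiv_apply] using this.symm
      rw [this, hf, Matrix.toLin'_apply, coordMap_mulVec b b' Mp hM', ← range_coordMap]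
      exact ⟨a', rfl⟩
    · intro hv'
      rw [← range_coordMap] at hv'
      obtain ⟨a', rfl⟩ := hv'
      refine ⟨f a', ⟨a', rfl⟩, ?_⟩
      apply Subtype.ext
      rw [LinearEquiv.coe_coe, coordEquiv_apply, hf, Matrix.toLin'_apply,
        coordMap_mulVec b b' Mp hM']
  have e1 : ((ι → k[X]) ⧸ N.restrictScalars k) ≃ₗ[k] RelQuot (Lfin b') (Lfin b) :=
    Submodule.Quotient.equiv _ _ (coordEquiv b) hmapN
  have e2 : ((ι → k[X]) ⧸ N.restrictScalars k) ≃ₗ[k] ((ι → k[X]) ⧸ N) :=
    Submodule.Quotient.restrictScalarsEquiv k N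
  have e3 := e2.symm.trans e1
  have := key.1
  refine ⟨Module.Finite.equiv e3, ?_⟩
  rw [← e3.finrank_eq, key.2, ← hdetK, RatFunc.intDegree_polynomial]


/-- the product of all denominators of the entries of a matrix of rational functions -/
noncomputable def commonDenom (T : Matrix ι ι (RatFunc k)) : k[X] :=
  ∏ i, ∏ j, (T i j).denom

omit [DecidableEq ι] in
theorem commonDenom_ne_zero (T : Matrix ι ι (RatFunc k)) : commonDenom T ≠ 0 := by
  unfold commonDenom
  exact Finset.prod_ne_zero_iff.2 fun i _ => Finset.prod_ne_zero_iff.2 fun j _ =>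
    RatFunc.denom_ne_zero _

omit [DecidableEq ι] in
theorem commonDenom_mul_mem (T : Matrix ι ι (RatFunc k)) (i j : ι) :
    algebraMap k[X] (RatFunc k) (commonDenom T) * T i j ∈
      Set.range (algebraMap k[X] (RatFunc k)) := by
  have h1 : (T i j).denom ∣ commonDenom T :=
    (Finset.dvd_prod_of_mem (fun j => (T i j).denom) (Finset.mem_univ j)).trans
      (Finset.dvd_prod_of_mem (fun i => ∏ j, (T i j).denom) (Finset.mem_univ i))
  obtain ⟨c, hc⟩ := h1
  refine ⟨c * (T i j).num, ?_⟩
  have hdK : algebraMap k[X] (RatFunc k) (T i j).denom ≠ 0 :=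
    RatFunc.algebraMap_ne_zero (RatFunc.denom_ne_zero _)
  have hTij : T i j = algebraMap k[X] (RatFunc k) (T i j).num /
      algebraMap k[X] (RatFunc k) (T i j).denom := (RatFunc.num_div_denom _).symm
  generalize (T i j).num = n at *
  generalize (T i j).denom = d at *
  rw [hc, hTij, map_mul, map_mul]
  field_simp

theorem intDegree_pow' {x : RatFunc k} (hx : x ≠ 0) (m : ℕ) :
    (x ^ m).intDegree = m * x.intDegree := by
  induction m with
  | zero => simp
  | succ m ih =>
    rw [pow_succ, RatFunc.intDegree_mul (pow_ne_zero m hx) hx, ih]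
    push_cast
    ring

theorem chi_eq_aux (bf binf : Basis ι (RatFunc k) V) :
    FiniteDimensional k ↥(Lfin bf ⊓ Linf binf) ∧
    FiniteDimensional k (V ⧸ (Lfin bf ⊔ Linf binf)) ∧
    (finrank k ↥(Lfin bf ⊓ Linf binf) : ℤ) - finrank k (V ⧸ (Lfin bf ⊔ Linf binf)) =
      Fintype.card ι - (binf.toMatrix bf).det.intDegree := by
  set T := binf.toMatrix bf with hT
  set g := commonDenom T with hg
  have hg0 : g ≠ 0 := commonDenom_ne_zero T
  have hgK : algebraMap k[X] (RatFunc k) g ≠ 0 := RatFunc.algebraMap_ne_zero hg0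
  set w : ι → (RatFunc k)ˣ := fun _ => Units.mk0 _ hgK with hw
  set b2 := bf.unitsSMul w with hb2
  -- the two change of basis matrices
  have hM1 : binf.toMatrix b2 = algebraMap k[X] (RatFunc k) g • T := by
    ext i j
    simp only [Basis.toMatrix_apply, hb2, Basis.unitsSMul_apply, hw, Units.smul_def,
      Units.val_mk0, map_smul, Finsupp.smul_apply, smul_eq_mul, Matrix.smul_apply, hT]
  have hM2 : bf.toMatrix b2 = Matrix.diagonal fun _ => algebraMap k[X] (RatFunc k) g := by
    rw [hb2, Basis.toMatrix_unitsSMul]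
    rfl
  have hpoly1 : ∀ i j, binf.toMatrix b2 i j ∈ Set.range (algebraMap k[X] (RatFunc k)) := by
    intro i j
    rw [hM1, Matrix.smul_apply, smul_eq_mul]
    exact commonDenom_mul_mem T i j
  have hpoly2 : ∀ i j, bf.toMatrix b2 i j ∈ Set.range (algebraMap k[X] (RatFunc k)) := by
    intro i j
    rw [hM2]
    by_cases hij : i = j
    · subst hij
      rw [Matrix.diagonal_apply_eq]
      exact ⟨g, rfl⟩
    · rw [Matrix.diagonal_apply_ne _ hij]
      exact ⟨0, map_zero _⟩
  have hdetT : T.det ≠ 0 := by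
    have h1 : binf.toMatrix bf * bf.toMatrix binf = 1 := Basis.toMatrix_mul_toMatrix_flip binf bf
    intro h0
    have := congrArg Matrix.det h1
    rw [Matrix.det_mul, ← hT, h0, zero_mul, Matrix.det_one] at this
    exact zero_ne_one this
  have hdeg1 : (binf.toMatrix b2).det.intDegree =
      Fintype.card ι * g.natDegree + T.det.intDegree := by
    rw [hM1, Matrix.det_smul, RatFunc.intDegree_mul (pow_ne_zero _ hgK) hdetT,
      intDegree_pow' hgK, RatFunc.intDegree_polynomial]
  have hdeg2 : (bf.toMatrix b2).det.intDegree = Fintype.card ι * g.natDegree := by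
    rw [hM2, Matrix.det_diagonal, Finset.prod_const, Finset.card_univ, intDegree_pow' hgK,
      RatFunc.intDegree_polynomial]
  have hle1 : Lfin b2 ≤ Lfin binf := Lfin_le_of_polynomial binf b2 hpoly1
  have hle2 : Lfin b2 ≤ Lfin bf := Lfin_le_of_polynomial bf b2 hpoly2
  obtain ⟨hfd1, hr1⟩ := relQuot_Lfin binf b2 hpoly1
  obtain ⟨hfd2, hr2⟩ := relQuot_Lfin bf b2 hpoly2
  obtain ⟨hfd0, hr0⟩ := standard_H0_finrank binf
  have hfdtop : FiniteDimensional k (V ⧸ (Lfin binf ⊔ Linf binf)) := by
    rw [standard_sup_eq_top]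
    infer_instance
  have hr0' : finrank k (V ⧸ (Lfin binf ⊔ Linf binf)) = 0 := by
    rw [standard_sup_eq_top]
    exact finrank_zero_of_subsingleton
  obtain ⟨hfdA, hfdB⟩ := fd_down (Linf binf) hle1
  obtain ⟨hfdC, hfdD⟩ := fd_up (Linf binf) hle2
  have e1 := chi_of_le (Linf binf) hle1
  have e2 := chi_of_le (Linf binf) hle2
  refine ⟨hfdC, hfdD, ?_⟩
  rw [hr0, hr0', hr1, hdeg1] at e1
  rw [hr2, hdeg2] at e2
  push_cast at e1
  linarith


/-- `H⁰` of a lattice pair is finite dimensional. -/
theorem finiteDimensional_H0 (bf binf : Basis ι (RatFunc k) V) :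
    FiniteDimensional k ↥(Lfin bf ⊓ Linf binf) :=
  (chi_eq_aux bf binf).1

/-- `H¹` of a lattice pair is finite dimensional. -/
theorem finiteDimensional_H1 (bf binf : Basis ι (RatFunc k) V) :
    FiniteDimensional k (V ⧸ (Lfin bf ⊔ Linf binf)) :=
  (chi_eq_aux bf binf).2.1

/-- **Riemann-Roch on the projective line for a pair of lattices.** -/
theorem chi_eq (bf binf : Basis ι (RatFunc k) V) :
    (finrank k ↥(Lfin bf ⊓ Linf binf) : ℤ) - finrank k (V ⧸ (Lfin bf ⊔ Linf binf)) =
      Fintype.card ι - (binf.toMatrix bf).det.intDegree :=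
  (chi_eq_aux bf binf).2.2

theorem le_finrank_H0 (bf binf : Basis ι (RatFunc k) V) :
    (Fintype.card ι : ℤ) - (binf.toMatrix bf).det.intDegree ≤
      finrank k ↥(Lfin bf ⊓ Linf binf) := by
  have := chi_eq bf binf
  have h : (0 : ℤ) ≤ finrank k (V ⧸ (Lfin bf ⊔ Linf binf)) := Int.natCast_nonneg _
  linarith

theorem finrank_H1_eq (bf binf : Basis ι (RatFunc k) V) :
    (finrank k (V ⧸ (Lfin bf ⊔ Linf binf)) : ℤ) =
      finrank k ↥(Lfin bf ⊓ Linf binf) - Fintype.card ι + (binf.toMatrix bf).det.intDegree := by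
  have := chi_eq bf binf
  linarith

omit [DecidableEq ι] in
/-- membership in `Lfin` in terms of polynomial coordinates. -/
theorem mem_Lfin_iff_exists {b : Basis ι (RatFunc k) V} {v : V} :
    v ∈ Lfin b ↔ ∃ a : ι → k[X], v = ∑ i, algebraMap k[X] (RatFunc k) (a i) • b i := by
  rw [← range_coordMap]
  constructor
  · rintro ⟨a, rfl⟩
    exact ⟨a, rfl⟩
  · rintro ⟨a, rfl⟩
    exact ⟨a, rfl⟩

omit [DecidableEq ι] in
/-- membership in `Linf` in terms of coordinates of nonpositive degree. -/
theorem mem_Linf_iff_exists {b : Basis ι (RatFunc k) V} {v : V} :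
    v ∈ Linf b ↔ ∃ a : ι → RatFunc k, (∀ i, (a i).intDegree ≤ 0) ∧ v = ∑ i, a i • b i := by
  constructor
  · intro h
    exact ⟨fun i => b.repr v i, h, (b.sum_repr v).symm⟩
  · rintro ⟨a, ha, rfl⟩ i
    rw [b.repr_sum_self]
    exact ha i

end lattices

end Fermat.Agent.S20_helper98
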